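import Fermat.Agent.S26.Ample.Spec

/-!
# S26 / AMPLE leaf AM-FF: the map of function fields restricts to the maps of local rings
(helper752)
-/

set_option autoImplicit false
universe u

open CategoryTheory CategoryTheory.Limits AlgebraicGeometry NeronModelInfra GoodReductionJacobian

namespace Fermat.Agent.S26.Ample.H752

noncomputable section

theorem algebraMap_stalk_eq {X : Scheme.{u}} [IsIntegral X] (x : X) :
    algebraMap (X.presheaf.stalk x) X.functionField =
      (X.presheaf.stalkSpecializes ((genericPoint_spec X).specializes trivial)).hom :=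
  rfl

/-- **AM-FF**. -/
theorem ffStalkMap : Stmt.FFStalkMap.{u} := by
  intro X Y _ _ φ h x r
  rw [algebraMap_stalk_eq, algebraMap_stalk_eq]
  have hsp : genericPoint X ⤳ x := (genericPoint_spec X).specializes trivial
  have key := φ.stalkSpecializes_stalkMap_apply (genericPoint X) x hsp r
  rw [← key]
  simp only [ffMap]
  rw [CommRingCat.hom_comp, RingHom.comp_apply]
  congr 1
  have hcomp : Y.presheaf.stalkSpecializes ((genericPoint_spec Y).specializes trivial) ≫
      (Y.presheaf.stalkCongr (.of_eq h.symm)).hom =
      Y.presheaf.stalkSpecializes (φ.base.hom.map_specializes hsp) := by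
    simp only [TopCat.Presheaf.stalkCongr]
    rw [TopCat.Presheaf.stalkSpecializes_comp]
  exact DFunLike.congr_fun (CommRingCat.hom_ext_iff.mp hcomp) r

end

end Fermat.Agent.S26.Ample.H752
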